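import Mathlib
import Fermat.Agent.Lib.FrobeniusExistsAt
import Fermat.Agent.S56x.Hens.TameGlobal
import Fermat.Agent.S56x.Flat.InertiaField

/-!
# P-S19 (F5, arithmetic input): the decomposition field at `p` has residue field `𝔽_p` and
uniformiser `p`  (helper15)

`P` a valuation subring of `Qbar = AlgebraicClosure ℚ` over the rational prime `p`,
`D = P.decompositionSubgroup ℚ`.  The ring `O^h = P ∩ Qbar^D` (`decompInt P`) is the henselisation
of `ℤ_(p)`; we prove the two facts used in the descent `O^h → ℤ_(p)` of lattices: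

* `exists_int_sub_mem_nonunits` : a `D`-fixed element of `P` is congruent to a rational integer
  modulo the maximal ideal (residue degree one; Frobenius fixes it, so its residue class is a root
  of `X^p - X`);
* `exists_int_add_pow_mul` : for every `n`, a `D`-fixed element `c` of `P` is `r + p^n d` with
  `r ∈ ℤ` and `d ∈ P` again `D`-fixed  (`O^h = ℤ + p^n O^h`);
* `exists_rat_add_pow_mul` : for every `n`, every `D`-fixed `c ∈ Qbar` is `r + p^n d` with `r ∈ ℚ`
  and `d ∈ P` `D`-fixed  (`K^h = ℚ + p^n O^h`, "ℚ is `p`-adically dense in `K^h`");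
* `rat_mem_iff` : `ℚ ∩ P = ℤ_(p)`.
-/

set_option autoImplicit false

open scoped Pointwise
open IsLocalRing

namespace Fermat.Agent.S19x.Hens

local notation "Qbar" => AlgebraicClosure ℚ
local notation "Γℚ" => (AlgebraicClosure ℚ ≃ₐ[ℚ] AlgebraicClosure ℚ)

open Fermat.Agent.S56x.Hens Fermat.Agent.S56x.Flat.InertiaField

variable (P : ValuationSubring Qbar) {p : ℕ}

/-- The residue field of a valuation subring over `p` has characteristic `p`. -/
theorem charP_residueField (hp : p.Prime) (hP : P.LiesOverPrime p) :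
    CharP (ResidueField P) p := by
  have h0 : ((p : ℕ) : ResidueField P) = 0 := by
    have h1 : residue P ((p : ℕ) : P) = 0 := by
      rw [residue_eq_zero_iff, ← ValuationSubring.coe_mem_nonunits_iff]
      have : (((p : ℕ) : P) : Qbar) = ((p : ℕ) : Qbar) := by simp
      rw [this]
      exact hP
    rw [map_natCast] at h1
    exact h1
  have h2 := CharP.ringChar_of_prime_eq_zero hp h0
  exact h2 ▸ ringChar.charP (ResidueField P)

/-- **Residue degree one.** An element of `P` fixed by the decomposition group is congruent to a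
rational integer modulo the maximal ideal of `P`. -/
theorem exists_int_sub_mem_nonunits (hp : p.Prime) (hP : P.LiesOverPrime p) {c : Qbar}
    (hc : c ∈ P) (hfix : ∀ t ∈ P.decompositionSubgroup ℚ, t c = c) :
    ∃ r : ℤ, c - (r : Qbar) ∈ P.nonunits := by
  have : Fact p.Prime := ⟨hp⟩
  have := charP_residueField P hp hP
  obtain ⟨φ, hφ, -⟩ := Fermat.Agent.Lib.exists_isFrobeniusAt_of_liesOverPrime hp P hP
  rw [isFrobeniusAt_iff] at hφ
  have h1 := hφ.2 c hc
  rw [hfix φ hφ.1] at h1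
  -- the residue class of `c` is a root of `X ^ p - X`
  have h2 : (residue P ⟨c, hc⟩) ^ p = residue P ⟨c, hc⟩ := by
    rw [← map_pow, ← sub_eq_zero, ← map_sub, residue_eq_zero_iff,
      ← ValuationSubring.coe_mem_nonunits_iff]
    have h3 : (((⟨c, hc⟩ : P) ^ p - ⟨c, hc⟩ : P) : Qbar) = -(c - c ^ p) := by
      push_cast
      ring
    rw [h3]
    exact P.nonunits.neg_mem h1
  have h4 := (Subfield.mem_bot_iff_pow_eq_self (F := ResidueField P) (p := p)).mpr h2
  rw [← ZMod.fieldRange_castHom_eq_bot p, RingHom.mem_fieldRange] at h4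
  obtain ⟨a, ha⟩ := h4
  obtain ⟨r, rfl⟩ := ZMod.intCast_surjective a
  refine ⟨r, ?_⟩
  have h5 : residue P (⟨c, hc⟩ - (r : P)) = 0 := by
    rw [map_sub, map_intCast, ← ha]
    simp
  rw [residue_eq_zero_iff, ← ValuationSubring.coe_mem_nonunits_iff] at h5
  have h6 : ((⟨c, hc⟩ - (r : P) : P) : Qbar) = c - (r : Qbar) := by
    push_cast
    rfl
  rw [h6] at h5
  exact h5

/-- One step: a `D`-fixed element of `P` is an integer plus `p` times a `D`-fixed element of `P`. -/
theorem exists_int_add_mul (hp : p.Prime) (hP : P.LiesOverPrime p) {c : Qbar}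
    (hc : c ∈ P) (hfix : ∀ t ∈ P.decompositionSubgroup ℚ, t c = c) :
    ∃ (r : ℤ) (d : Qbar), d ∈ P ∧ (∀ t ∈ P.decompositionSubgroup ℚ, t d = d) ∧
      c = (r : Qbar) + (p : Qbar) * d := by
  obtain ⟨r, hr⟩ := exists_int_sub_mem_nonunits P hp hP hc hfix
  have hfixI : ∀ t ∈ P.inertiaSubgroupIn ℚ, t (c - (r : Qbar)) = c - (r : Qbar) := by
    intro t ht
    have htD : t ∈ P.decompositionSubgroup ℚ := ((mem_inertiaSubgroupIn_iff P t).mp ht).1
    rw [map_sub, hfix t htD, map_intCast]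
  obtain ⟨d, hd, hcd⟩ := div_mem_of_fixed P hp hP (c - (r : Qbar)) hr hfixI
  have hp0 : ((p : ℕ) : Qbar) ≠ 0 := by
    have : CharZero Qbar := algebraRat.charZero Qbar
    exact_mod_cast hp.ne_zero
  refine ⟨r, d, hd, fun t ht => ?_, ?_⟩
  · have h1 : t (c - (r : Qbar)) = c - (r : Qbar) := by
      rw [map_sub, hfix t ht, map_intCast]
    rw [hcd, map_mul, map_natCast] at h1
    exact mul_left_cancel₀ hp0 h1
  · rw [← hcd]
    ring

/-- **`O^h = ℤ + p^n O^h`.** -/
theorem exists_int_add_pow_mul (hp : p.Prime) (hP : P.LiesOverPrime p) (n : ℕ) {c : Qbar}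
    (hc : c ∈ P) (hfix : ∀ t ∈ P.decompositionSubgroup ℚ, t c = c) :
    ∃ (r : ℤ) (d : Qbar), d ∈ P ∧ (∀ t ∈ P.decompositionSubgroup ℚ, t d = d) ∧
      c = (r : Qbar) + (p : Qbar) ^ n * d := by
  induction n generalizing c with
  | zero => exact ⟨0, c, hc, hfix, by simp⟩
  | succ n ih =>
    obtain ⟨r₁, d₁, hd₁, hd₁fix, h1⟩ := ih hc hfix
    obtain ⟨r₂, d₂, hd₂, hd₂fix, h2⟩ := exists_int_add_mul P hp hP hd₁ hd₁fix
    refine ⟨r₁ + (p : ℤ) ^ n * r₂, d₂, hd₂, hd₂fix, ?_⟩
    rw [h1, h2]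
    push_cast
    ring

/-- A rational number lying in `P` has denominator prime to `p`. -/
theorem rat_mem_iff (hp : p.Prime) (hP : P.LiesOverPrime p) (r : ℚ) :
    (algebraMap ℚ Qbar r) ∈ P ↔ r ∈ GaloisRep.ratLocalizedAt p := by
  have hpP : ((p : ℕ) : Qbar) ∈ P.nonunits := hP
  constructor
  · intro h
    show r.den.Coprime p
    by_contra hcop
    have hdvd : p ∣ r.den := by
      rcases (Nat.coprime_or_dvd_of_prime hp r.den) with h1 | h1
      · exact absurd h1.symm hcop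
      · exact h1
    obtain ⟨m, hm⟩ := hdvd
    -- `r.num = r * r.den = r * p * m ∈ nonunits`
    have h1 : ((r.num : ℤ) : Qbar) = algebraMap ℚ Qbar r * ((p : ℕ) : Qbar) * (m : Qbar) := by
      have h2 : (r.num : ℚ) = r * (r.den : ℚ) := (Rat.mul_den_eq_num r).symm
      have h3 := congrArg (algebraMap ℚ Qbar) h2
      rw [map_intCast, map_mul, map_natCast, hm] at h3
      rw [h3]
      push_cast
      ring
    have h4 : ((r.num : ℤ) : Qbar) ∈ P.nonunits := by
      rw [h1]
      have hm' : (m : Qbar) ∈ P := by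
        have : (m : Qbar) = ((m : ℤ) : Qbar) := by simp
        rw [this]
        exact intCast_mem P m
      have h5 : algebraMap ℚ Qbar r * ((p : ℕ) : Qbar) ∈ P.nonunits := by
        rw [mul_comm]
        exact Fermat.Agent.Lib.mul_mem_nonunits_of_mem P hpP h
      exact Fermat.Agent.Lib.mul_mem_nonunits_of_mem P h5 hm'
    -- so `p ∣ r.num`, contradicting reducedness
    have h6 : (p : ℤ) ∣ r.num := by
      by_contra hnd
      have hcop' : IsCoprime (p : ℤ) r.num :=
        (Nat.prime_iff_prime_int.mp hp).coprime_iff_not_dvd.mpr hnd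
      obtain ⟨a, b, hab⟩ := hcop'
      have h7 : (1 : Qbar) ∈ P.nonunits := by
        have h8 : (1 : Qbar) = (a : Qbar) * ((p : ℕ) : Qbar) + (b : Qbar) * ((r.num : ℤ) : Qbar) := by
          have := congrArg (fun z : ℤ => (z : Qbar)) hab
          push_cast at this
          rw [← this]
        rw [h8]
        refine P.nonunits.add_mem ?_ ?_
        · rw [mul_comm]
          exact Fermat.Agent.Lib.mul_mem_nonunits_of_mem P hpP (intCast_mem P a)
        · rw [mul_comm]
          exact Fermat.Agent.Lib.mul_mem_nonunits_of_mem P h4 (intCast_mem P b)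
      exact one_notMem_nonunits P h7
    have h9 : (p : ℤ) ∣ (r.den : ℤ) := by
      rw [hm]
      push_cast
      exact Dvd.intro _ rfl
    have h10 := r.reduced
    have h11 : p ∣ r.num.natAbs := Int.natCast_dvd.mp h6
    have h12 : p ∣ r.den := ⟨m, hm⟩
    have h13 := Nat.dvd_gcd h11 h12
    rw [Nat.Coprime.gcd_eq_one h10] at h13
    exact hp.one_lt.ne' (Nat.dvd_one.mp h13)
  · intro h
    exact ratLocalizedAt_mem P hp hP ⟨r, h⟩

/-- Some power of `p` times a given element of `Qbar` lies in `P`. -/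
theorem exists_pow_mul_mem (hp : p.Prime) (hP : P.LiesOverPrime p) (c : Qbar) :
    ∃ m : ℕ, (p : Qbar) ^ m * c ∈ P := by
  have hpP : ((p : ℕ) : Qbar) ∈ P.nonunits := hP
  have : CharZero Qbar := algebraRat.charZero Qbar
  have hQalg : Algebra.IsAlgebraic ℚ Qbar := AlgebraicClosure.isAlgebraic ℚ
  have hcalg : IsAlgebraic ℤ c :=
    (IsFractionRing.isAlgebraic_iff ℤ ℚ Qbar).mpr (Algebra.IsAlgebraic.isAlgebraic c)
  obtain ⟨N, hN0, hN⟩ := hcalg.exists_integral_multiple
  -- `N = p ^ m * N'` with `p ∤ N'`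
  obtain ⟨m, N', hN', hNeq⟩ : ∃ (m : ℕ) (N' : ℤ), ¬ (p : ℤ) ∣ N' ∧ N = (p : ℤ) ^ m * N' := by
    have hpi : Prime (p : ℤ) := Nat.prime_iff_prime_int.mp hp
    have hfin : FiniteMultiplicity (p : ℤ) N :=
      Int.finiteMultiplicity_iff.mpr ⟨by
        simpa using hp.one_lt.ne', hN0⟩
    obtain ⟨k, hk⟩ : ∃ k : ℕ, k = multiplicity (p : ℤ) N := ⟨_, rfl⟩
    obtain ⟨N', hNN'⟩ := pow_multiplicity_dvd (p : ℤ) N
    rw [← hk] at hNN'
    refine ⟨k, N', ?_, hNN'⟩
    intro hdvd
    obtain ⟨N'', hN''⟩ := hdvd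
    have h1 : (p : ℤ) ^ (k + 1) ∣ N := by
      refine ⟨N'', ?_⟩
      calc N = (p : ℤ) ^ k * N' := hNN'
        _ = (p : ℤ) ^ k * ((p : ℤ) * N'') := by rw [hN'']
        _ = (p : ℤ) ^ (k + 1) * N'' := by ring
    exact hfin.not_pow_dvd_of_multiplicity_lt (by rw [← hk]; exact Nat.lt_succ_self _) h1
  refine ⟨m, ?_⟩
  have h1 : N • c ∈ P := Fermat.Agent.Lib.mem_valuationSubring_of_isIntegral P hN
  have h2 : ((N' : ℤ) : Qbar) ∈ P := intCast_mem P N'
  have h3 : ((N' : ℤ) : Qbar) ∉ P.nonunits :=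
    Fermat.Agent.Lib.intCast_not_mem_nonunits P hp hpP hN'
  have h4 := (inv_mem_of_notMem_nonunits P h2 h3).2
  have hN'0 : ((N' : ℤ) : Qbar) ≠ 0 := by
    intro h0
    apply h3
    rw [h0]
    exact P.nonunits.zero_mem
  have h5 : (p : Qbar) ^ m * c = N • c * ((N' : ℤ) : Qbar)⁻¹ := by
    rw [zsmul_eq_mul, hNeq]
    push_cast
    field_simp
  rw [h5]
  exact P.mul_mem _ _ h1 h4

/-- **`K^h = ℚ + p^n O^h`.** Every element of `Qbar` fixed by the decomposition group of `P` is,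
for every `n`, a rational number plus `p ^ n` times a `D`-fixed element of `P`. -/
theorem exists_rat_add_pow_mul (hp : p.Prime) (hP : P.LiesOverPrime p) (n : ℕ) (c : Qbar)
    (hfix : ∀ t ∈ P.decompositionSubgroup ℚ, t c = c) :
    ∃ (r : ℚ) (d : Qbar), d ∈ P ∧ (∀ t ∈ P.decompositionSubgroup ℚ, t d = d) ∧
      c = algebraMap ℚ Qbar r + (p : Qbar) ^ n * d := by
  have : CharZero Qbar := algebraRat.charZero Qbar
  have hp0 : ((p : ℕ) : Qbar) ≠ 0 := by exact_mod_cast hp.ne_zero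
  obtain ⟨m, hm⟩ := exists_pow_mul_mem P hp hP c
  have hfix' : ∀ t ∈ P.decompositionSubgroup ℚ, t ((p : Qbar) ^ m * c) = (p : Qbar) ^ m * c := by
    intro t ht
    rw [map_mul, map_pow, map_natCast, hfix t ht]
  obtain ⟨r, d, hd, hdfix, h1⟩ := exists_int_add_pow_mul P hp hP (n + m) hm hfix'
  refine ⟨(r : ℚ) / (p : ℚ) ^ m, d, hd, hdfix, ?_⟩
  have h2 : c = ((r : Qbar) + (p : Qbar) ^ (n + m) * d) / (p : Qbar) ^ m := by
    rw [← h1]
    field_simp
  rw [h2, map_div₀, map_intCast, map_pow, map_natCast, pow_add]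
  field_simp

/-! ### The ring `O^h` -/

/-- `O^h = P ∩ Qbar^D`: the elements of `P` fixed by the decomposition group. -/
def decompInt : Subring Qbar where
  carrier := {c | c ∈ P ∧ ∀ t ∈ P.decompositionSubgroup ℚ, t c = c}
  mul_mem' := by
    rintro a b ⟨ha, ha'⟩ ⟨hb, hb'⟩
    exact ⟨P.mul_mem _ _ ha hb, fun t ht => by rw [map_mul, ha' t ht, hb' t ht]⟩
  one_mem' := ⟨P.one_mem, fun t _ => map_one t⟩
  add_mem' := by
    rintro a b ⟨ha, ha'⟩ ⟨hb, hb'⟩
    exact ⟨P.add_mem _ _ ha hb, fun t ht => by rw [map_add, ha' t ht, hb' t ht]⟩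
  zero_mem' := ⟨P.zero_mem, fun t _ => map_zero t⟩
  neg_mem' := by
    rintro a ⟨ha, ha'⟩
    exact ⟨P.neg_mem _ ha, fun t ht => by rw [map_neg, ha' t ht]⟩

theorem mem_decompInt {c : Qbar} :
    c ∈ decompInt P ↔ c ∈ P ∧ ∀ t ∈ P.decompositionSubgroup ℚ, t c = c := Iff.rfl

theorem decompInt_le_inertiaInt : decompInt P ≤ inertiaInt P := by
  rintro c ⟨hc, hfix⟩
  exact ⟨hc, fun t ht => hfix t ((mem_inertiaSubgroupIn_iff P t).mp ht).1⟩

theorem algebraMap_ratLocalizedAt_mem_decompInt (hp : p.Prime) (hP : P.LiesOverPrime p)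
    (o : GaloisRep.ratLocalizedAt p) :
    algebraMap (GaloisRep.ratLocalizedAt p) Qbar o ∈ decompInt P :=
  ⟨ratLocalizedAt_mem P hp hP o, fun t _ => t.commutes (o : ℚ)⟩

/-- `O^h = ℤ + p^n O^h`, subring form. -/
theorem decompInt_exists_int_add_pow_mul (hp : p.Prime) (hP : P.LiesOverPrime p) (n : ℕ)
    (c : decompInt P) : ∃ (r : ℤ) (d : decompInt P), c = (r : decompInt P) + (p : decompInt P) ^ n * d := by
  obtain ⟨r, d, hd, hdfix, h⟩ := exists_int_add_pow_mul P hp hP n c.2.1 c.2.2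
  refine ⟨r, ⟨d, hd, hdfix⟩, Subtype.ext ?_⟩
  rw [h]
  push_cast
  rfl

end Fermat.Agent.S19x.Hens
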