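import Mathlib
import Fermat.Agent.S19x.Hens.DecompResidue

/-!
# P-S19 (F4/F5 leaf): elements fixed by the decomposition group modulo the maximal ideal, and
elements fixed by the whole Galois group  (helper15, requested by helper94)

`P` a valuation subring of `Qbar = AlgebraicClosure ℚ` over the rational prime `ℓ`.

* `exists_int_sub_mem_nonunits_of_pow_sub_mem` : if `c ∈ P` and `c - c ^ ℓ ∈ 𝔪_P` then `c` is
  congruent to a rational integer modulo `𝔪_P` (the roots of `X ^ ℓ - X` in a field of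
  characteristic `ℓ` are the elements of the prime field);
* `exists_int_sub_mem_nonunits_of_forall_sub_mem` : if `c ∈ P` is fixed **modulo `𝔪_P`** by the
  decomposition group of `P` then `c` is congruent to a rational integer modulo `𝔪_P`
  (a Frobenius lift `φ ∈ D` acts on the residue field as `x ↦ x ^ ℓ`);
* `exists_ratLocalizedAt_eq_of_fixed` : an element of `P` fixed by all of `Gal(Qbar/ℚ)` comes from
  `ℤ_(ℓ) = GaloisRep.ratLocalizedAt ℓ`.
-/

set_option autoImplicit false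

open scoped Pointwise
open IsLocalRing

namespace Fermat.Agent.S19x.Hens

local notation "Qbar" => AlgebraicClosure ℚ
local notation "Γℚ" => (AlgebraicClosure ℚ ≃ₐ[ℚ] AlgebraicClosure ℚ)

open Fermat.Agent.S56x.Hens Fermat.Agent.S56x.Flat.InertiaField

variable (P : ValuationSubring Qbar) {ℓ : ℕ}

/-- If the residue class of `c ∈ P` is a root of `X ^ ℓ - X` then `c` is congruent to a rational
integer modulo the maximal ideal. -/
theorem exists_int_sub_mem_nonunits_of_pow_sub_mem (hℓ : ℓ.Prime) (hP : P.LiesOverPrime ℓ)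
    (c : Qbar) (hc : c ∈ P) (h1 : c - c ^ ℓ ∈ P.nonunits) :
    ∃ a : ℤ, c - (a : Qbar) ∈ P.nonunits := by
  have : Fact ℓ.Prime := ⟨hℓ⟩
  have := charP_residueField P hℓ hP
  have h2 : (residue P ⟨c, hc⟩) ^ ℓ = residue P ⟨c, hc⟩ := by
    rw [← map_pow, ← sub_eq_zero, ← map_sub, residue_eq_zero_iff,
      ← ValuationSubring.coe_mem_nonunits_iff]
    have h3 : (((⟨c, hc⟩ : P) ^ ℓ - ⟨c, hc⟩ : P) : Qbar) = -(c - c ^ ℓ) := by
      push_cast
      ring
    rw [h3]
    exact P.nonunits.neg_mem h1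
  have h4 := (Subfield.mem_bot_iff_pow_eq_self (F := ResidueField P) (p := ℓ)).mpr h2
  rw [← ZMod.fieldRange_castHom_eq_bot ℓ, RingHom.mem_fieldRange] at h4
  obtain ⟨a, ha⟩ := h4
  obtain ⟨r, rfl⟩ := ZMod.intCast_surjective a
  refine ⟨r, ?_⟩
  have h5 : residue P (⟨c, hc⟩ - (r : P)) = 0 := by
    rw [map_sub, map_intCast, ← ha]
    simp
  rw [residue_eq_zero_iff, ← ValuationSubring.coe_mem_nonunits_iff] at h5
  have h6 : ((⟨c, hc⟩ - (r : P) : P) : Qbar) = c - (r : Qbar) := by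
    push_cast
    rfl
  rw [h6] at h5
  exact h5

/-- **Residue degree one, congruence form.** An element of `P` which every element of the
decomposition group fixes *modulo the maximal ideal* is congruent to a rational integer modulo the
maximal ideal. -/
theorem exists_int_sub_mem_nonunits_of_forall_sub_mem (hℓ : ℓ.Prime) (hP : P.LiesOverPrime ℓ)
    (c : Qbar) (hc : c ∈ P)
    (h : ∀ σ ∈ P.decompositionSubgroup ℚ, σ c - c ∈ P.nonunits) :
    ∃ a : ℤ, c - (a : Qbar) ∈ P.nonunits := by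
  obtain ⟨φ, hφ, -⟩ := Fermat.Agent.Lib.exists_isFrobeniusAt_of_liesOverPrime hℓ P hP
  rw [isFrobeniusAt_iff] at hφ
  have h1 := hφ.2 c hc
  have h2 := h φ hφ.1
  refine exists_int_sub_mem_nonunits_of_pow_sub_mem P hℓ hP c hc ?_
  have h3 : c - c ^ ℓ = (φ c - c ^ ℓ) - (φ c - c) := by ring
  rw [h3]
  exact P.nonunits.sub_mem h1 h2

/-- An element of `Qbar` fixed by the whole Galois group is rational. -/
theorem exists_rat_eq_of_fixed (c : Qbar) (hfix : ∀ σ : Γℚ, σ c = c) :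
    ∃ r : ℚ, algebraMap ℚ Qbar r = c := by
  have : Algebra.IsAlgebraic ℚ Qbar := AlgebraicClosure.isAlgebraic ℚ
  have : IsAlgClosure ℚ Qbar := ⟨inferInstance, inferInstance⟩
  have : IsGalois ℚ Qbar := IsAlgClosure.isGalois ℚ Qbar
  exact (InfiniteGalois.mem_range_algebraMap_iff_fixed (k := ℚ) (K := Qbar) c).mpr hfix

/-- **`Qbar^{G_ℚ} ∩ P = ℤ_(ℓ)`.** An element of `P` fixed by the whole Galois group comes from
`ℤ_(ℓ)`. -/
theorem exists_ratLocalizedAt_eq_of_fixed (hℓ : ℓ.Prime) (hP : P.LiesOverPrime ℓ)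
    (c : Qbar) (hc : c ∈ P) (hfix : ∀ σ : Γℚ, σ c = c) :
    ∃ r : GaloisRep.ratLocalizedAt ℓ, algebraMap (GaloisRep.ratLocalizedAt ℓ) Qbar r = c := by
  obtain ⟨r, rfl⟩ := exists_rat_eq_of_fixed c hfix
  exact ⟨⟨r, (rat_mem_iff P hℓ hP r).mp hc⟩, rfl⟩

/-- Converse direction, for convenience: elements of `ℤ_(ℓ)` lie in `P` and are Galois-fixed. -/
theorem algebraMap_ratLocalizedAt_fixed (r : GaloisRep.ratLocalizedAt ℓ) (σ : Γℚ) :
    σ (algebraMap (GaloisRep.ratLocalizedAt ℓ) Qbar r) =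
      algebraMap (GaloisRep.ratLocalizedAt ℓ) Qbar r :=
  σ.commutes (r : ℚ)

/-- `c ∈ P` is Galois-fixed iff it comes from `ℤ_(ℓ)`. -/
theorem mem_and_fixed_iff_exists_ratLocalizedAt (hℓ : ℓ.Prime) (hP : P.LiesOverPrime ℓ)
    (c : Qbar) :
    (c ∈ P ∧ ∀ σ : Γℚ, σ c = c) ↔
      ∃ r : GaloisRep.ratLocalizedAt ℓ, algebraMap (GaloisRep.ratLocalizedAt ℓ) Qbar r = c := by
  constructor
  · rintro ⟨hc, hfix⟩
    exact exists_ratLocalizedAt_eq_of_fixed P hℓ hP c hc hfix
  · rintro ⟨r, rfl⟩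
    exact ⟨ratLocalizedAt_mem P hℓ hP r, fun σ => algebraMap_ratLocalizedAt_fixed r σ⟩

end Fermat.Agent.S19x.Hens
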