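/-
P-S19, block A support (`FixData` for `S` = inertia), Qbar-level facts (helper3).

`P` a valuation subring of `Qbar = AlgebraicClosure ℚ` over the rational prime `ℓ`,
`I = P.inertiaSubgroupIn ℚ`, `O = inertiaInt P = P ∩ Qbar^I`.

* `exists_pow_sub_one_mem_nonunits` : every unit `a` of `P` satisfies `a ^ n - 1 ∈ 𝔪` for some
  `n > 0` prime to `ℓ` (the residue field is algebraic over `𝔽_ℓ`; proof: a Frobenius element has a
  power fixing `a`).
* `rootOfUnity_fixed` : inertia fixes the roots of unity of order prime to `ℓ`.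
* `exists_rootOfUnity_sub_mem_nonunits` : Teichmüller representatives.
* `exists_fixed_sub_mem_nonunits` (**residue_surj**) : every `a ∈ P` is congruent modulo `𝔪` to an
  element of `inertiaInt P`: the residue field of `O` is the residue field of `P`.
* `exists_eq_natCast_mul_of_fixed` (**unif**) : an inertia-fixed element of `𝔪` is `ℓ` times an
  element of `O`.
-/
import Mathlib
import Fermat.Agent.S19x.Hens.DecompResidue

set_option autoImplicit false

open scoped Pointwise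
open IsLocalRing

namespace Fermat.Agent.S19x.Hens.InertiaResidue

open Fermat.Agent.S56x.Hens Fermat.Agent.S56x.Flat.InertiaField Fermat.Agent.S19x.Hens

local notation "Qbar" => AlgebraicClosure ℚ
local notation "Γℚ" => (AlgebraicClosure ℚ ≃ₐ[ℚ] AlgebraicClosure ℚ)

variable (P : ValuationSubring Qbar)

/-- Congruence modulo the maximal ideal, in terms of the residue map. -/
theorem sub_mem_nonunits_iff {x y : Qbar} (hx : x ∈ P) (hy : y ∈ P) :
    x - y ∈ P.nonunits ↔ residue P ⟨x, hx⟩ = residue P ⟨y, hy⟩ := by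
  rw [← sub_eq_zero, ← map_sub, residue_eq_zero_iff, ← ValuationSubring.coe_mem_nonunits_iff]
  rfl

theorem mem_nonunits_iff_residue {x : Qbar} (hx : x ∈ P) :
    x ∈ P.nonunits ↔ residue P ⟨x, hx⟩ = 0 := by
  rw [residue_eq_zero_iff, ← ValuationSubring.coe_mem_nonunits_iff]

/-- `𝔪` is stable under multiplication by `P`. -/
theorem mul_mem_nonunits_right {x y : Qbar} (hx : x ∈ P.nonunits) (hy : y ∈ P) :
    x * y ∈ P.nonunits := by
  have hxP : x ∈ P := P.nonunits_subset hx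
  rw [mem_nonunits_iff_residue P (mul_mem hxP hy)]
  have e : (⟨x * y, mul_mem hxP hy⟩ : P) = (⟨x, hxP⟩ : P) * ⟨y, hy⟩ := rfl
  rw [e, map_mul, (mem_nonunits_iff_residue P hxP).mp hx, zero_mul]

/-- Some positive power of a Galois automorphism fixes a given algebraic number. -/
theorem exists_pow_apply_eq (φ : Γℚ) (a : Qbar) : ∃ f : ℕ, 0 < f ∧ (φ ^ f) a = a := by
  have halg : Algebra.IsAlgebraic ℚ Qbar := AlgebraicClosure.isAlgebraic ℚ
  have hint : IsIntegral ℚ a := Algebra.IsIntegral.isIntegral a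
  have hfin : ((minpoly ℚ a).rootSet Qbar).Finite := Polynomial.rootSet_finite _ _
  have hmem : ∀ i : ℕ, (φ ^ i) a ∈ (minpoly ℚ a).rootSet Qbar := by
    intro i
    rw [Polynomial.mem_rootSet]
    refine ⟨minpoly.ne_zero hint, ?_⟩
    rw [Polynomial.aeval_algHom_apply, minpoly.aeval, map_zero]
  obtain ⟨i, j, hij, h⟩ := hfin.exists_lt_map_eq_of_forall_mem hmem
  refine ⟨j - i, Nat.sub_pos_of_lt hij, ?_⟩
  have hj : φ ^ j = φ ^ i * φ ^ (j - i) := by
    rw [← pow_add, Nat.add_sub_cancel' hij.le]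
  rw [hj, AlgEquiv.mul_apply] at h
  exact ((φ ^ i).injective h).symm

/-- Powers of a Frobenius element. -/
theorem frob_pow_sub_mem {ℓ : ℕ} (φ : Γℚ) (hφD : φ ∈ P.decompositionSubgroup ℚ)
    (hφ : ∀ x ∈ P, φ x - x ^ ℓ ∈ P.nonunits) (f : ℕ) :
    ∀ x ∈ P, (φ ^ f) x ∈ P ∧ (φ ^ f) x - x ^ (ℓ ^ f) ∈ P.nonunits := by
  induction f with
  | zero =>
    intro x hx
    refine ⟨by simpa using hx, ?_⟩
    simp only [pow_zero, pow_one, AlgEquiv.one_apply, sub_self]
    exact P.nonunits.zero_mem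
  | succ f ih =>
    intro x hx
    have hy : φ x ∈ P := ((⟨φ, hφD⟩ : P.decompositionSubgroup ℚ) • (⟨x, hx⟩ : P)).2
    have hxl : x ^ ℓ ∈ P := pow_mem hx _
    obtain ⟨h1, h2⟩ := ih (φ x) hy
    have h3 : (φ x) ^ (ℓ ^ f) - (x ^ ℓ) ^ (ℓ ^ f) ∈ P.nonunits := by
      rw [sub_mem_nonunits_iff P (pow_mem hy _) (pow_mem hxl _)]
      have h4 := (sub_mem_nonunits_iff P hy hxl).mp (hφ x hx)
      have e1 : (⟨(φ x) ^ (ℓ ^ f), pow_mem hy _⟩ : P) = (⟨φ x, hy⟩ : P) ^ (ℓ ^ f) := rfl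
      have e2 : (⟨(x ^ ℓ) ^ (ℓ ^ f), pow_mem hxl _⟩ : P) = (⟨x ^ ℓ, hxl⟩ : P) ^ (ℓ ^ f) := rfl
      rw [e1, e2, map_pow, map_pow, h4]
    have hpow : (φ ^ (f + 1)) x = (φ ^ f) (φ x) := by
      rw [pow_succ, AlgEquiv.mul_apply]
    rw [hpow]
    refine ⟨h1, ?_⟩
    have h5 : (φ ^ f) (φ x) - x ^ (ℓ ^ (f + 1)) =
        ((φ ^ f) (φ x) - (φ x) ^ (ℓ ^ f)) + ((φ x) ^ (ℓ ^ f) - (x ^ ℓ) ^ (ℓ ^ f)) := by
      rw [← pow_mul, ← pow_succ']
      ring
    rw [h5]
    exact P.nonunits.add_mem h2 h3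

variable {ℓ : ℕ}

/-- The residue field of `P` is algebraic over `𝔽_ℓ`: every unit of `P` has a power, of exponent
prime to `ℓ`, congruent to `1`. -/
theorem exists_pow_sub_one_mem_nonunits (hℓ : ℓ.Prime) (hP : P.LiesOverPrime ℓ) {a : Qbar}
    (ha : a ∈ P) (hau : a ∉ P.nonunits) :
    ∃ n : ℕ, 0 < n ∧ ¬ ℓ ∣ n ∧ a ^ n - 1 ∈ P.nonunits := by
  obtain ⟨φ, hφ, -⟩ := Fermat.Agent.Lib.exists_isFrobeniusAt_of_liesOverPrime hℓ P hP
  rw [isFrobeniusAt_iff] at hφ
  obtain ⟨f, hf, hfa⟩ := exists_pow_apply_eq φ a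
  obtain ⟨-, h1⟩ := frob_pow_sub_mem P φ hφ.1 hφ.2 f a ha
  rw [hfa] at h1
  have hpos : 0 < ℓ ^ f := pow_pos hℓ.pos f
  have hone : 1 < ℓ ^ f := Nat.one_lt_pow hf.ne' hℓ.one_lt
  refine ⟨ℓ ^ f - 1, Nat.sub_pos_of_lt hone, ?_, ?_⟩
  · intro hdvd
    have h2 : ℓ ∣ ℓ ^ f := dvd_pow_self ℓ hf.ne'
    have h3 : ℓ ∣ ℓ ^ f - (ℓ ^ f - 1) := Nat.dvd_sub h2 hdvd
    rw [Nat.sub_sub_self hpos] at h3
    exact hℓ.one_lt.ne' (Nat.dvd_one.mp h3)
  · have hq : a ^ (ℓ ^ f) ∈ P := pow_mem ha _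
    have hn : a ^ (ℓ ^ f - 1) ∈ P := pow_mem ha _
    rw [sub_mem_nonunits_iff P ha hq] at h1
    rw [sub_mem_nonunits_iff P hn P.one_mem]
    have ha0 : residue P ⟨a, ha⟩ ≠ 0 := fun h => hau ((mem_nonunits_iff_residue P ha).mpr h)
    have e1 : (⟨a ^ (ℓ ^ f), hq⟩ : P) = (⟨a, ha⟩ : P) * ⟨a ^ (ℓ ^ f - 1), hn⟩ := by
      apply Subtype.ext
      show a ^ (ℓ ^ f) = a * a ^ (ℓ ^ f - 1)
      rw [← pow_succ', Nat.sub_add_cancel hpos]
    rw [e1, map_mul] at h1
    have e2 : (⟨(1 : Qbar), P.one_mem⟩ : P) = 1 := rfl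
    rw [e2, map_one]
    have h2 : residue P ⟨a, ha⟩ * 1 = residue P ⟨a, ha⟩ * residue P ⟨a ^ (ℓ ^ f - 1), hn⟩ := by
      rw [mul_one]
      exact h1
    exact (mul_left_cancel₀ ha0 h2).symm

/-- Roots of unity lie in every valuation subring. -/
theorem mem_of_pow_eq_one {n : ℕ} (hn : 0 < n) {x : Qbar} (hx : x ^ n = 1) : x ∈ P := by
  rcases P.mem_or_inv_mem x with h | h
  · exact h
  · have h1 : x = (x⁻¹) ^ (n - 1) := by
      have hx0 : x ≠ 0 := by
        rintro rfl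
        rw [zero_pow hn.ne'] at hx
        exact zero_ne_one hx
      have h2 : x * x ^ (n - 1) = 1 := by
        rw [← pow_succ', Nat.sub_add_cancel hn]
        exact hx
      rw [inv_pow]
      exact eq_inv_of_mul_eq_one_left h2
    rw [h1]
    exact pow_mem h _

/-- Reduction is injective on roots of unity of order prime to `ℓ`. -/
theorem eq_of_pow_eq_one_of_sub_mem (hℓ : ℓ.Prime) (hP : P.LiesOverPrime ℓ) {n : ℕ} (hn : 0 < n)
    (hℓn : ¬ ℓ ∣ n) {x y : Qbar} (hx : x ^ n = 1) (hy : y ^ n = 1)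
    (hxy : x - y ∈ P.nonunits) : x = y := by
  by_contra hne
  have := charP_residueField P hℓ hP
  have hy0 : y ≠ 0 := by
    rintro rfl
    rw [zero_pow hn.ne'] at hy
    exact zero_ne_one hy
  -- `ξ = x / y` is a non-trivial `n`-th root of unity congruent to `1`
  set ξ : Qbar := x * y⁻¹ with hξdef
  have hξn : ξ ^ n = 1 := by
    rw [hξdef, mul_pow, inv_pow, hx, hy, inv_one, mul_one]
  have hξ1 : ξ ≠ 1 := by
    intro h
    apply hne
    rw [hξdef] at h
    field_simp at h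
    exact h
  have hξP : ξ ∈ P := mem_of_pow_eq_one P hn hξn
  have hyinv : y⁻¹ ∈ P := mem_of_pow_eq_one P hn (by rw [inv_pow, hy, inv_one])
  have hξm : ξ - 1 ∈ P.nonunits := by
    have h1 : ξ - 1 = (x - y) * y⁻¹ := by
      rw [hξdef, sub_mul, mul_inv_cancel₀ hy0]
    rw [h1]
    exact mul_mem_nonunits_right P hxy hyinv
  -- work in the ring `P`
  set ξP : P := ⟨ξ, hξP⟩ with hξPdef
  have hξPn : ξP ^ n = 1 := Subtype.ext (by simpa using hξn)
  have hξP1 : ξP - 1 ≠ 0 := by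
    intro h
    apply hξ1
    exact congrArg (fun z : P => (z : Qbar)) (sub_eq_zero.mp h)
  have hsum : ∑ i ∈ Finset.range n, ξP ^ i = 0 := by
    have h1 : (ξP - 1) * ∑ i ∈ Finset.range n, ξP ^ i = 0 := by
      rw [mul_geom_sum, hξPn, sub_self]
    exact (mul_eq_zero.mp h1).resolve_left hξP1
  have hres : residue P ξP = 1 := by
    have h1 := (sub_mem_nonunits_iff P hξP P.one_mem).mp hξm
    rw [h1]
    exact map_one _
  have hcast : ((n : ℕ) : ResidueField P) = 0 := by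
    have h1 := congrArg (residue P) hsum
    rw [map_sum, map_zero] at h1
    simp only [map_pow, hres, one_pow, Finset.sum_const, Finset.card_range, nsmul_eq_mul,
      mul_one] at h1
    exact h1
  exact hℓn ((CharP.cast_eq_zero_iff (ResidueField P) ℓ n).mp hcast)

/-- Inertia fixes the roots of unity of order prime to `ℓ`. -/
theorem rootOfUnity_fixed (hℓ : ℓ.Prime) (hP : P.LiesOverPrime ℓ) {n : ℕ} (hn : 0 < n)
    (hℓn : ¬ ℓ ∣ n) {ζ : Qbar} (hζ : ζ ^ n = 1) (t : Γℚ) (ht : t ∈ P.inertiaSubgroupIn ℚ) :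
    t ζ = ζ := by
  have hζP := mem_of_pow_eq_one P hn hζ
  have h1 := ((mem_inertiaSubgroupIn_iff P t).mp ht).2 ζ hζP
  exact eq_of_pow_eq_one_of_sub_mem P hℓ hP hn hℓn (by rw [← map_pow, hζ, map_one]) hζ h1

/-- **Teichmüller representatives.**  Every unit of `P` is congruent to a root of unity of order
prime to `ℓ`. -/
theorem exists_rootOfUnity_sub_mem_nonunits (hℓ : ℓ.Prime) (hP : P.LiesOverPrime ℓ) {a : Qbar}
    (ha : a ∈ P) (hau : a ∉ P.nonunits) :
    ∃ n : ℕ, 0 < n ∧ ¬ ℓ ∣ n ∧ ∃ ζ : Qbar, ζ ^ n = 1 ∧ a - ζ ∈ P.nonunits := by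
  obtain ⟨n, hn, hℓn, han⟩ := exists_pow_sub_one_mem_nonunits P hℓ hP ha hau
  refine ⟨n, hn, hℓn, ?_⟩
  have : NeZero n := ⟨hn.ne'⟩
  obtain ⟨ζ₀, hζ₀⟩ := HasEnoughRootsOfUnity.exists_primitiveRoot Qbar n
  have hprod := Polynomial.X_pow_sub_one_eq_prod hn hζ₀
  have heval : a ^ n - 1 = ∏ ζ ∈ Polynomial.nthRootsFinset n (1 : Qbar), (a - ζ) := by
    have := congrArg (Polynomial.eval a) hprod
    simpa [Polynomial.eval_prod] using this
  by_contra hcon
  push Not at hcon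
  have hval : ∀ ζ ∈ Polynomial.nthRootsFinset n (1 : Qbar), P.valuation (a - ζ) = 1 := by
    intro ζ hζ
    have hζn : ζ ^ n = 1 := (Polynomial.mem_nthRootsFinset hn 1).mp hζ
    have hmem : a - ζ ∈ P := sub_mem ha (mem_of_pow_eq_one P hn hζn)
    have h1 := (P.valuation_le_one_iff _).mpr hmem
    have h2 : ¬ P.valuation (a - ζ) < 1 := fun h =>
      hcon ζ hζn ((ValuationSubring.mem_nonunits_iff P).mpr h)
    exact le_antisymm h1 (not_lt.mp h2)
  have h3 : P.valuation (a ^ n - 1) = 1 := by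
    rw [heval, map_prod]
    exact Finset.prod_eq_one hval
  have h4 := (ValuationSubring.mem_nonunits_iff P).mp han
  rw [h3] at h4
  exact lt_irrefl _ h4

/-- **`residue_surj` for inertia.**  Every element of `P` is congruent modulo the maximal ideal to
an element of `inertiaInt P = P ∩ Qbar^I`: the inertia field has the full residue field. -/
theorem exists_fixed_sub_mem_nonunits (hℓ : ℓ.Prime) (hP : P.LiesOverPrime ℓ) {a : Qbar}
    (ha : a ∈ P) : ∃ a₀ ∈ inertiaInt P, a₀ - a ∈ P.nonunits := by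
  by_cases hau : a ∈ P.nonunits
  · refine ⟨0, (inertiaInt P).zero_mem, ?_⟩
    rw [zero_sub]
    exact P.nonunits.neg_mem hau
  · obtain ⟨n, hn, hℓn, ζ, hζ, haζ⟩ := exists_rootOfUnity_sub_mem_nonunits P hℓ hP ha hau
    refine ⟨ζ, ⟨mem_of_pow_eq_one P hn hζ,
      fun t ht => rootOfUnity_fixed P hℓ hP hn hℓn hζ t ht⟩, ?_⟩
    have h1 : ζ - a = -(a - ζ) := by ring
    rw [h1]
    exact P.nonunits.neg_mem haζ

/-- **`unif` for inertia.**  An inertia-fixed element of the maximal ideal of `P` is `ℓ` times an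
element of `inertiaInt P`. -/
theorem exists_eq_natCast_mul_of_fixed (hℓ : ℓ.Prime) (hP : P.LiesOverPrime ℓ) {c : Qbar}
    (hc : c ∈ P.nonunits) (hfix : ∀ t ∈ P.inertiaSubgroupIn ℚ, t c = c) :
    ∃ d ∈ inertiaInt P, c = (ℓ : Qbar) * d := by
  obtain ⟨d, hdP, hd⟩ := div_mem_of_fixed P hℓ hP c hc hfix
  have hp0 := natCast_ne_zero_Qbar P hℓ hP
  refine ⟨d, ⟨hdP, fun t ht => ?_⟩, hd⟩
  have h1 := hfix t ht
  rw [hd, map_mul, map_natCast] at h1
  exact mul_left_cancel₀ hp0 h1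

/-- `ℓ` is a non-zero element of the maximal ideal of `P` lying in `inertiaInt P`. -/
theorem natCast_mem_inertiaInt : (ℓ : Qbar) ∈ inertiaInt P :=
  ⟨natCast_mem P ℓ, fun t _ => map_natCast t ℓ⟩

end Fermat.Agent.S19x.Hens.InertiaResidue
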